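import Mathlib

/-!
# P-ES1 / ES1-KL, GB1 helper (helper27): the product of the root differences lies in the base field

`E₀ ⊆ E` fields, `Q ∈ E₀[X]` with `Q = ∏_{i ∈ I} (X - v i)` over `E`.  Then
`∏_{i ∈ I} ∏_{j ∈ I.erase i} (v i - v j)` (`= ± disc Q`) is the image of an element of `E₀`, namely
of the resultant of `Q` and `Q'`.  Mathlib only.
-/

set_option autoImplicit false

noncomputable section

namespace Fermat.Agent.H27.ES1KL

open Polynomial

/-- Derivative of a split polynomial at one of its roots. -/
theorem eval_derivative_prod_X_sub_C {E : Type*} [Field E] {ι : Type*} [DecidableEq ι]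
    (I : Finset ι) (v : ι → E) (i : ι) (hi : i ∈ I) :
    (derivative (∏ j ∈ I, (X - C (v j)))).eval (v i) = ∏ j ∈ I.erase i, (v i - v j) := by
  rw [derivative_prod_finset, eval_finsetSum]
  rw [Finset.sum_eq_single i]
  · simp [eval_prod]
  · intro b _ hbi
    rw [eval_mul, eval_prod]
    have : ∏ j ∈ I.erase b, eval (v i) (X - C (v j)) = 0 :=
      Finset.prod_eq_zero (Finset.mem_erase.2 ⟨Ne.symm hbi, hi⟩) (by simp)
    rw [this, zero_mul]
  · intro h
    exact absurd hi h

/-- **The product of the root differences lies in the base field.** -/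
theorem exists_rootDiffProd {E₀ E : Type*} [Field E₀] [Field E] [Algebra E₀ E]
    {ι : Type*} [DecidableEq ι] (I : Finset ι) (v : ι → E) (Q : E₀[X])
    (hsplit : Q.map (algebraMap E₀ E) = ∏ i ∈ I, (X - C (v i))) :
    ∃ d : E₀, algebraMap E₀ E d = ∏ i ∈ I, ∏ j ∈ I.erase i, (v i - v j) := by
  classical
  refine ⟨resultant Q (derivative Q) Q.natDegree (derivative Q).natDegree, ?_⟩
  obtain ⟨f, hf⟩ : ∃ f : E[X], f = Q.map (algebraMap E₀ E) := ⟨_, rfl⟩
  obtain ⟨g, hg⟩ : ∃ g : E[X], g = (derivative Q).map (algebraMap E₀ E) := ⟨_, rfl⟩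
  have hfs : f = ∏ i ∈ I, (X - C (v i)) := hf.trans hsplit
  have hfdeg : f.natDegree = Q.natDegree := by
    rw [hf]
    exact natDegree_map_eq_of_injective (algebraMap E₀ E).injective Q
  have hmonic : f.Monic := by
    rw [hfs]
    exact monic_prod_of_monic _ _ fun i _ => monic_X_sub_C (v i)
  have hsplits : f.Splits := by
    rw [hfs]
    exact Splits.prod fun i _ => Splits.X_sub_C (v i)
  have hgdeg : g.natDegree ≤ (derivative Q).natDegree := by
    rw [hg]
    exact natDegree_map_le
  have h1 := resultant_eq_prod_eval f g (derivative Q).natDegree hgdeg hsplits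
  rw [hmonic.leadingCoeff, one_pow, one_mul, hfdeg] at h1
  rw [← resultant_map_map, ← hf, ← hg, h1]
  have hroots : f.roots = I.val.map v := by
    rw [hfs, Finset.prod_eq_multiset_prod]
    have : Multiset.map (fun i => X - C (v i)) I.val
        = Multiset.map (fun a => X - C a) (Multiset.map v I.val) := by
      rw [Multiset.map_map]
      rfl
    rw [this, roots_multiset_prod_X_sub_C]
  rw [hroots, Multiset.map_map]
  show (Multiset.map (fun i => g.eval (v i)) I.val).prod = _
  rw [Finset.prod_eq_multiset_prod]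
  refine congrArg Multiset.prod (Multiset.map_congr rfl fun i hi => ?_)
  have hgd : g = derivative (∏ j ∈ I, (X - C (v j))) := by
    rw [hg, ← derivative_map, hsplit]
  rw [hgd]
  exact eval_derivative_prod_X_sub_C I v i hi

end Fermat.Agent.H27.ES1KL

end
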